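import Mathlib
import Fermat.Agent.LT.T1.Spec
import Fermat.Agent.LT.T7.H57.FoldSpec2

/-!
# Row LT, tower T7, LEAF `FoldWhitC`, node `CorePosC57`: EXCHANGE of fundamental domains on the
Borel coordinates `P = 𝔸 × 𝔸ˣ × 𝔸ˣ` (helper290)

OFF-MAIN.  No `sorry`, nothing assumed.
-/

set_option autoImplicit false
set_option linter.unusedSectionVars false
set_option linter.style.haveILetI false

open AutomorphicForm IsDedekindDomain NumberField Filter Topology MeasureTheory
open scoped ComplexConjugate ENNReal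

noncomputable section

namespace Fermat.Agent.LT.T7.Rigid.H290

open Fermat.Agent.LT.H556 Fermat.Agent.LT.H556.A0 Fermat.Agent.LT.T7 Fermat.Agent.LT.T7.Rigid
open Fermat.Agent.LT.T7.H57

variable (K : Type) [Field K] [NumberField K]

/-- The Borel σ-algebra of the adeles (local instance of this file). -/
local instance instMA290 : MeasurableSpace (Adl K) := borel (Adl K)

local instance instBA290 : BorelSpace (Adl K) := ⟨rfl⟩

/-- The Borel σ-algebra of the ideles (local instance of this file). -/
local instance instMI290 : MeasurableSpace (Adl K)ˣ := borel (Adl K)ˣ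

local instance instBI290 : BorelSpace (Adl K)ˣ := ⟨rfl⟩

/-! ## 1. Unfolding on `𝔸` and on the ideles, `ℝ≥0∞` form -/

theorem countable_K290 : Countable K := Finsupp.Countable.of_moduleFinite (R := ℚ) (M := K)

/-- Unfolding over `K` in the adeles. -/
theorem lintegral_unfold_add290
    (ν : Measure (Adl K)) [ν.IsAddHaarMeasure] {D : Set (Adl K)}
    (hD : IsAddFundamentalDomain ((algebraMap K (Adl K)).toAddMonoidHom.range) D ν)
    (f : Adl K → ℝ≥0∞) (hf : Measurable f) :
    ∫⁻ x, f x ∂ν = ∫⁻ x in D, (∑' ξ : K, f (x + algebraMap K (Adl K) ξ)) ∂ν := by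
  have : Countable K := countable_K290 K
  set Γ : AddSubgroup (Adl K) := (algebraMap K (Adl K)).toAddMonoidHom.range with hΓ
  have hinj : Function.Injective (algebraMap K (Adl K)).toAddMonoidHom :=
    NumberField.AdeleRing.algebraMap_injective (𝓞 K) K
  let e : K ≃+ Γ := AddMonoidHom.ofInjective hinj
  have : Countable Γ := e.symm.injective.countable
  have hm : ∀ ξ : K, AEMeasurable (fun x => f (x + algebraMap K (Adl K) ξ)) (ν.restrict D) :=
    fun ξ => (hf.comp (measurable_id.add_const _)).aemeasurable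
  rw [hD.lintegral_eq_tsum'' f, lintegral_tsum hm, ← e.toEquiv.tsum_eq]
  refine tsum_congr fun ξ => ?_
  refine lintegral_congr fun x => ?_
  change f ((e ξ : Adl K) + x) = f (x + algebraMap K (Adl K) ξ)
  rw [add_comm]
  rfl

/-- Unfolding over `Kˣ` in the ideles. -/
theorem lintegral_unfold_mul290
    (τ : Measure (Adl K)ˣ) [τ.IsHaarMeasure] {FX : Set (Adl K)ˣ}
    (hFX : IsFundamentalDomain (ratU57 K).range FX τ)
    (f : (Adl K)ˣ → ℝ≥0∞) (hf : Measurable f) :
    ∫⁻ y, f y ∂τ = ∫⁻ y in FX, (∑' α : Kˣ, f (ratU57 K α * y)) ∂τ := by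
  have : Countable K := countable_K290 K
  have : Countable Kˣ := Function.Injective.countable (f := Units.val) Units.val_injective
  have hinj : Function.Injective (ratU57 K) := by
    intro a b hab
    have h1 : ((ratU57 K a : (Adl K)ˣ) : Adl K) = ((ratU57 K b : (Adl K)ˣ) : Adl K) := by rw [hab]
    exact Units.ext (NumberField.AdeleRing.algebraMap_injective (𝓞 K) K h1)
  let e : Kˣ ≃* (ratU57 K).range := MonoidHom.ofInjective hinj
  have : Countable (ratU57 K).range := e.symm.injective.countable
  have hm : ∀ α : Kˣ, AEMeasurable (fun y => f (ratU57 K α * y)) (τ.restrict FX) :=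
    fun α => (hf.comp (measurable_const_mul _)).aemeasurable
  rw [hFX.lintegral_eq_tsum'' f, lintegral_tsum hm, ← e.toEquiv.tsum_eq]
  refine tsum_congr fun α => ?_
  rfl

/-! ## 2. The measures as sums of translates of their restrictions to fundamental domains -/

theorem countable_Kx290 : Countable Kˣ :=
  haveI := countable_K290 K
  Function.Injective.countable (f := Units.val) Units.val_injective

theorem ratU_injective290 : Function.Injective (ratU57 K) := by
  intro a b hab
  have h1 : ((ratU57 K a : (Adl K)ˣ) : Adl K) = ((ratU57 K b : (Adl K)ˣ) : Adl K) := by rw [hab]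
  exact Units.ext (NumberField.AdeleRing.algebraMap_injective (𝓞 K) K h1)

/-- `ν = ∑_ξ (x ↦ x + ξ)_* (ν|_D)`. -/
theorem sum_map_add290 (ν : Measure (Adl K)) [ν.IsAddHaarMeasure] {D : Set (Adl K)}
    (hD : IsAddFundamentalDomain ((algebraMap K (Adl K)).toAddMonoidHom.range) D ν) :
    Measure.sum (fun ξ : K => Measure.map (fun x : Adl K => x + algebraMap K (Adl K) ξ)
      (ν.restrict D)) = ν := by
  have : Countable K := countable_K290 K
  refine Measure.ext_of_lintegral _ fun f hf => ?_
  have hm : ∀ ξ : K, AEMeasurable (fun x => f (x + algebraMap K (Adl K) ξ)) (ν.restrict D) :=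
    fun ξ => (hf.comp (measurable_id.add_const _)).aemeasurable
  rw [lintegral_sum_measure, lintegral_unfold_add290 K ν hD f hf, lintegral_tsum hm]
  refine tsum_congr fun ξ => ?_
  exact lintegral_map hf (measurable_id.add_const _)

/-- `τ = ∑_α (y ↦ α y)_* (τ|_FX)`. -/
theorem sum_map_mul290 (τ : Measure (Adl K)ˣ) [τ.IsHaarMeasure] {FX : Set (Adl K)ˣ}
    (hFX : IsFundamentalDomain (ratU57 K).range FX τ) :
    Measure.sum (fun α : Kˣ => Measure.map (fun y : (Adl K)ˣ => ratU57 K α * y)
      (τ.restrict FX)) = τ := by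
  have : Countable Kˣ := countable_Kx290 K
  refine Measure.ext_of_lintegral _ fun f hf => ?_
  have hm : ∀ α : Kˣ, AEMeasurable (fun y => f (ratU57 K α * y)) (τ.restrict FX) :=
    fun α => (hf.comp (measurable_const_mul _)).aemeasurable
  rw [lintegral_sum_measure, lintegral_unfold_mul290 K τ hFX f hf, lintegral_tsum hm]
  refine tsum_congr fun α => ?_
  exact lintegral_map hf (measurable_const_mul _)

/-- The twisted form: `ν = ∑_ξ (x ↦ α x + ξ)_* (ν|_D)` for `α ∈ Kˣ`. -/
theorem sum_map_affine290 (hS : Fermat.Agent.LT.T3.HaarScaleC K)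
    (ν : Measure (Adl K)) [hν : ν.IsAddHaarMeasure] {D : Set (Adl K)}
    (hD : IsAddFundamentalDomain ((algebraMap K (Adl K)).toAddMonoidHom.range) D ν) (α : Kˣ) :
    Measure.sum (fun ξ : K => Measure.map
      (fun x : Adl K => algebraMap K (Adl K) (α : K) * x + algebraMap K (Adl K) ξ)
      (ν.restrict D)) = ν := by
  have : Countable K := countable_K290 K
  have hm : Measurable fun x : Adl K => algebraMap K (Adl K) (α : K) * x :=
    (continuous_const.mul continuous_id).measurable
  have h1 : Measure.map (fun x : Adl K => algebraMap K (Adl K) (α : K) * x) ν = ν := hS ν hν α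
  conv_rhs => rw [← h1, ← sum_map_add290 K ν hD]
  rw [Measure.map_sum hm.aemeasurable]
  rw [← Measure.sum_comp_equiv (Equiv.mulLeft₀ (α : K) α.ne_zero)]
  congr 1
  funext ξ
  have hadd : Measurable fun x : Adl K => x + algebraMap K (Adl K) ξ :=
    measurable_id.add_const _
  rw [Measure.map_map hm hadd]
  change Measure.map (fun x : Adl K => algebraMap K (Adl K) (α : K) * x
    + algebraMap K (Adl K) ((α : K) * ξ)) (ν.restrict D) = _
  congr 1
  funext x
  simp [mul_add]

/-! ## 3. The action of `B(K)` on the coordinates and the exchange formula -/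

/-- The action of `(ξ, α, δ) ∈ K × Kˣ × Kˣ` (the upper triangular matrix
`[[α δ, ξ δ], [0, δ]]`) on the Borel coordinates: `(x, y, z) ↦ (α x + ξ, α y, δ z)`. -/
def actB (t : K × Kˣ × Kˣ) (p : Adl K × (Adl K)ˣ × (Adl K)ˣ) : Adl K × (Adl K)ˣ × (Adl K)ˣ :=
  (algebraMap K (Adl K) (t.2.1 : K) * p.1 + algebraMap K (Adl K) t.1,
    ratU57 K t.2.1 * p.2.1, ratU57 K t.2.2 * p.2.2)

theorem actB_eq_prodMap (t : K × Kˣ × Kˣ) :
    actB K t = Prod.map
      (fun x : Adl K => algebraMap K (Adl K) (t.2.1 : K) * x + algebraMap K (Adl K) t.1)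
      (Prod.map (fun y : (Adl K)ˣ => ratU57 K t.2.1 * y)
        (fun z : (Adl K)ˣ => ratU57 K t.2.2 * z)) := rfl

theorem measurable_affine290 (α : Kˣ) (ξ : K) :
    Measurable fun x : Adl K => algebraMap K (Adl K) (α : K) * x + algebraMap K (Adl K) ξ :=
  ((continuous_const.mul continuous_id).add continuous_const).measurable

theorem measurable_actB290 [SecondCountableTopology (Adl K)] (t : K × Kˣ × Kˣ) :
    Measurable (actB K t) := by
  rw [actB_eq_prodMap]
  exact (measurable_affine290 K t.2.1 t.1).prodMap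
    ((measurable_const_mul _).prodMap (measurable_const_mul _))

/-- **The measure of the Borel coordinates is the sum of the translates of its restriction to
the box `D × FX × FX`.** -/
theorem sum_map_actB290 (hS : Fermat.Agent.LT.T3.HaarScaleC K)
    (ν : Measure (Adl K)) [ν.IsAddHaarMeasure] [SFinite ν] {D : Set (Adl K)}
    (hD : IsAddFundamentalDomain ((algebraMap K (Adl K)).toAddMonoidHom.range) D ν)
    (τ : Measure (Adl K)ˣ) [τ.IsHaarMeasure] [SFinite τ] {FX : Set (Adl K)ˣ}
    (hFX : IsFundamentalDomain (ratU57 K).range FX τ) :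
    Measure.sum (fun t : K × Kˣ × Kˣ => Measure.map (actB K t)
      ((ν.prod (τ.prod τ)).restrict (D ×ˢ (FX ×ˢ FX)))) = ν.prod (τ.prod τ) := by
  have : Countable K := countable_K290 K
  have : Countable Kˣ := countable_Kx290 K
  have hR : (ν.prod (τ.prod τ)).restrict (D ×ˢ (FX ×ˢ FX))
      = (ν.restrict D).prod ((τ.restrict FX).prod (τ.restrict FX)) := by
    rw [Measure.prod_restrict, Measure.prod_restrict]
  have hττ : τ.prod τ = Measure.sum (fun q : Kˣ × Kˣ =>
      Measure.map (Prod.map (fun y : (Adl K)ˣ => ratU57 K q.1 * y)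
        (fun z : (Adl K)ˣ => ratU57 K q.2 * z)) ((τ.restrict FX).prod (τ.restrict FX))) := by
    conv_lhs => rw [← sum_map_mul290 K τ hFX]
    rw [Measure.prod_sum]
    congr 1
    funext q
    exact Measure.map_prod_map _ _ (measurable_const_mul _) (measurable_const_mul _)
  have hq : ∀ q : Kˣ × Kˣ, ν.prod (Measure.map (Prod.map (fun y : (Adl K)ˣ => ratU57 K q.1 * y)
        (fun z : (Adl K)ˣ => ratU57 K q.2 * z)) ((τ.restrict FX).prod (τ.restrict FX)))
      = Measure.sum (fun ξ : K => Measure.map (actB K (ξ, q))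
          ((ν.prod (τ.prod τ)).restrict (D ×ˢ (FX ×ˢ FX)))) := by
    intro q
    conv_lhs => rw [← sum_map_affine290 K hS ν hD q.1]
    rw [Measure.prod_sum_left]
    congr 1
    funext ξ
    rw [hR, actB_eq_prodMap]
    exact Measure.map_prod_map _ _ (measurable_affine290 K q.1 ξ)
      ((measurable_const_mul _).prodMap (measurable_const_mul _))
  conv_rhs => rw [hττ, Measure.prod_sum_right]
  simp_rw [hq]
  rw [Measure.sum_sum]
  rw [← Measure.sum_comp_equiv (Equiv.prodComm K (Kˣ × Kˣ))]
  rfl

/-- **Unfolding on the Borel coordinates.** -/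
theorem lintegral_unfold_actB290 [SecondCountableTopology (Adl K)]
    (hS : Fermat.Agent.LT.T3.HaarScaleC K)
    (ν : Measure (Adl K)) [ν.IsAddHaarMeasure] [SFinite ν] {D : Set (Adl K)}
    (hD : IsAddFundamentalDomain ((algebraMap K (Adl K)).toAddMonoidHom.range) D ν)
    (τ : Measure (Adl K)ˣ) [τ.IsHaarMeasure] [SFinite τ] {FX : Set (Adl K)ˣ}
    (hFX : IsFundamentalDomain (ratU57 K).range FX τ)
    (H : Adl K × (Adl K)ˣ × (Adl K)ˣ → ℝ≥0∞) (hH : Measurable H) :
    ∫⁻ p, H p ∂(ν.prod (τ.prod τ))
      = ∫⁻ p in D ×ˢ (FX ×ˢ FX), (∑' t : K × Kˣ × Kˣ, H (actB K t p)) ∂(ν.prod (τ.prod τ)) := by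
  have : Countable K := countable_K290 K
  have : Countable Kˣ := countable_Kx290 K
  have hm : ∀ t : K × Kˣ × Kˣ, AEMeasurable (fun p => H (actB K t p))
      ((ν.prod (τ.prod τ)).restrict (D ×ˢ (FX ×ˢ FX))) :=
    fun t => (hH.comp (measurable_actB290 K t)).aemeasurable
  conv_lhs => rw [← sum_map_actB290 K hS ν hD τ hFX]
  rw [lintegral_sum_measure, lintegral_tsum hm]
  refine tsum_congr fun t => ?_
  exact lintegral_map hH (measurable_actB290 K t)

end Fermat.Agent.LT.T7.Rigid.H290

end
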