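import Mathlib
import Fermat.Agent.LT.T1.Spec
import Fermat.Agent.LT.T7.H57.FoldSpec3

/-!
# Row LT, tower T7, LEAF `FoldWhitC`, node `CorePosC57` -- CUT, level 4 (helper290)

OFF-MAIN.  Definitions and frozen Props.  The PROVED assembly is `LT/T7/H290/CoreTop.lean`:

```
CorePosC57 K  ⇐  T1.T1Out K + T3.HaarScaleC K        (closed: helper54, helper671)
               + FOLD (helper555 `LT/T7/H555/Fold.lean`, closed)
               + CellInvC290 K + CellIwasawaC290 K + CellCoordC290 K     (ALGEBRA, open)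
               + ThetaSetC290 K                                           (TOPOLOGY, open)
               + measure theory on the Borel coordinates (helper290, `BorelExch.lean`)
```

Vocabulary: `ι = iota57 : 𝔸 × 𝔸ˣ × 𝔸ˣ → GL₂(𝔸)`, `ι(x, y, z) = n(x) · diag(y, 1) · z`
(helper57 `FoldSpec2`); `𝒰(𝔪) = U(𝔪) K_∞` = `IsCpt290 𝔪`; `Ω = ι(P) 𝒰(𝔪)`.
-/

set_option autoImplicit false

open AutomorphicForm IsDedekindDomain NumberField Filter Topology MeasureTheory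
open scoped ComplexConjugate ENNReal

noncomputable section

namespace Fermat.Agent.LT.T7.Rigid.H290

open Fermat.Agent.LT.H556 Fermat.Agent.LT.H556.A0 Fermat.Agent.LT.T7 Fermat.Agent.LT.T7.Rigid
open Fermat.Agent.LT.T7.H57

attribute [local instance] Fermat.Agent.LT.T5.instMeasurableSpaceG

variable {K : Type} [Field K] [NumberField K]

/-! ## Vocabulary -/

/-- The compact group `𝒰(𝔪) = U(𝔪) · K_∞`: congruent to `1` modulo `𝔪` at the finite places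
(`GL₂(𝒪_v)` at `v ∤ 𝔪`), unitary (of determinant one at the real places) at the infinite
places. -/
def IsCpt290 (𝔪 : Ideal (𝓞 K)) (κ : G K) : Prop :=
  (∀ (v : HeightOneSpectrum (𝓞 K)) (i j : Fin 2),
      (finComp v κ - 1) i j ∈ idealClosure 𝔪 v ∧ (finComp v κ⁻¹ - 1) i j ∈ idealClosure 𝔪 v) ∧
    ∀ w : InfinitePlace K, infComp w κ * (infComp w κ).conjTranspose = 1 ∧
      (w.IsReal → (infComp w κ).det = 1)

/-- The bottom row of `g`. -/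
def botRow290 (g : G K) : Fin 2 → Adl K := fun j => (g : Matrix (Fin 2) (Fin 2) (Adl K)) 1 j

/-- The cusp set `E(𝔪, Y)`: height `≥ Y` and the congruence clause for the bottom row
(same body as `foldSet555` of helper555, and as the clause of `cntSet` for the row `(0, 1)`). -/
def cuspSet290 (𝔪 : Ideal (𝓞 K)) (Y : ℝ) : Set (G K) :=
  {g | rowNorm (botRow290 g) ^ 2 * Y
        ≤ Fermat.Agent.LT.T5.adNorm (Matrix.det (g : Matrix (Fin 2) (Fin 2) (Adl K))) ∧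
    ∀ v : HeightOneSpectrum (𝓞 K), v.asIdeal ∣ 𝔪 →
      ∃ t ∈ idealClosure 𝔪 v, (botRow290 g 0).2 v = t * (botRow290 g 1).2 v}

/-- The height `‖det g‖ / rowNorm(bottom row)²`. -/
def hgt290 (g : G K) : ℝ :=
  Fermat.Agent.LT.T5.adNorm (Matrix.det (g : Matrix (Fin 2) (Fin 2) (Adl K)))
    / rowNorm (botRow290 g) ^ 2

/-- The left Haar measure of the Borel coordinates: `|y|⁻¹ dν(x) dτ(y) dτ(z)`. -/
def lamB290 {mA : MeasurableSpace (Adl K)} {mI : MeasurableSpace (Adl K)ˣ}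
    (ν : Measure (Adl K)) (τ : Measure (Adl K)ˣ) : Measure (Adl K × (Adl K)ˣ × (Adl K)ˣ) :=
  (ν.prod (τ.prod τ)).withDensity fun p => ENNReal.ofReal ((nrm57 K p.2.1)⁻¹)

variable (K)

/-! ## The Props of level 4 -/

/-- **LEAF CELL-INV** (algebra: an element of `𝒰(𝔪)` is the product of an element of `U(𝔪)` and
of one element of the compact group at each infinite place).  A function right invariant under
`U(𝔪)` and under the compact groups at the infinite places is right invariant under `𝒰(𝔪)`. -/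
def CellInvC290 : Prop :=
  TotCplx K →
  ∀ 𝔪 : Ideal (𝓞 K), 𝔪 ≠ ⊥ →
  ∀ Φ : G K → ℝ≥0∞, IsRightCE57 K 𝔪 Φ →
    ∀ κ : G K, IsCpt290 𝔪 κ → ∀ g : G K, Φ (g * κ) = Φ g

/-- **LEAF CELL-IWASAWA** (Iwasawa decomposition with level: `T1.IwasawaC` + the congruence
clause at `v ∣ 𝔪`: `k_v ∈ GL₂(𝒪_v)` with bottom row `(c, d)`, `c ∈ 𝔪 d`, is
`[[*, *], [0, d]] · [[1, 0], [c/d, 1]]`).  Every element of the cusp set is `ι(p) κ` with
`κ ∈ 𝒰(𝔪)`. -/
def CellIwasawaC290 : Prop :=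
  TotCplx K → Fermat.Agent.LT.T1.T1Out K →
  ∀ 𝔪 : Ideal (𝓞 K), 𝔪 ≠ ⊥ → ∀ Y : ℝ, 0 < Y →
    ∀ g ∈ cuspSet290 (K := K) 𝔪 Y, ∃ (p : Adl K × (Adl K)ˣ × (Adl K)ˣ) (κ : G K),
      IsCpt290 𝔪 κ ∧ g = iota57 K p * κ

/-- **LEAF CELL-COORD** (algebra, finprod over the places).  On `ι(P) 𝒰(𝔪)`: the cusp set is
`{|y| ≥ Y}`, the height is `|y|`, the module of the determinant is `|y| |z|²`; `𝒰(𝔪)` is a
group. -/
def CellCoordC290 : Prop :=
  TotCplx K → Fermat.Agent.LT.T1.T1Out K →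
  ∀ 𝔪 : Ideal (𝓞 K), 𝔪 ≠ ⊥ →
    (∀ (p : Adl K × (Adl K)ˣ × (Adl K)ˣ) (κ : G K), IsCpt290 𝔪 κ →
      (∀ Y : ℝ, 0 < Y → (iota57 K p * κ ∈ cuspSet290 (K := K) 𝔪 Y ↔ Y ≤ nrm57 K p.2.1)) ∧
      hgt290 (iota57 K p * κ) = nrm57 K p.2.1 ∧
      Fermat.Agent.LT.T5.adNorm
          (Matrix.det ((iota57 K p * κ : G K) : Matrix (Fin 2) (Fin 2) (Adl K)))
        = nrm57 K p.2.1 * nrm57 K p.2.2 ^ 2) ∧
    (∀ κ κ' : G K, IsCpt290 𝔪 κ → IsCpt290 𝔪 κ' → IsCpt290 𝔪 (κ * κ'⁻¹))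

/-- **LEAF THETA-SET** (topology).  There is a Borel set `𝒱 ⊆ Ω = ι(P) 𝒰(𝔪)`, right invariant
under `𝒰(𝔪)`, of finite non-zero Haar measure, on which `|y|` is bounded, and such that
`W = {q : ι(q)⁻¹ ∈ 𝒱}` has finite non-zero measure for `λ = |y|⁻¹ dν dτ dτ`.
(Take `𝒱 = 𝒱₀ 𝒰(𝔪) ∩ Ω` with `𝒱₀` a compact neighbourhood of `1`: `𝒰(𝔪)` is compact, `Ω` is
closed and contains the open set `G_∞ × U(𝔪)_f`, `ι` is a closed embedding, `λ` is finite on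
compact sets and positive on open sets.) -/
def ThetaSetC290 : Prop :=
  letI : MeasurableSpace (Adl K) := borel (Adl K)
  letI : MeasurableSpace (Adl K)ˣ := borel (Adl K)ˣ
  TotCplx K → Fermat.Agent.LT.T1.T1Out K →
  ∀ μ : Measure (G K), μ.IsHaarMeasure →
  ∀ ν : Measure (Adl K), ν.IsAddHaarMeasure →
  ∀ τ : Measure (Adl K)ˣ, τ.IsHaarMeasure →
  ∀ 𝔪 : Ideal (𝓞 K), 𝔪 ≠ ⊥ →
    ∃ V : Set (G K), MeasurableSet V ∧
      (∀ g ∈ V, ∃ (p : Adl K × (Adl K)ˣ × (Adl K)ˣ) (κ : G K), IsCpt290 𝔪 κ ∧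
        g = iota57 K p * κ) ∧
      (∀ g ∈ V, ∀ κ : G K, IsCpt290 𝔪 κ → g * κ ∈ V) ∧
      μ V ≠ 0 ∧ μ V ≠ ⊤ ∧
      (∃ M : ℝ, ∀ (p : Adl K × (Adl K)ˣ × (Adl K)ˣ) (κ : G K), IsCpt290 𝔪 κ →
        iota57 K p * κ ∈ V → nrm57 K p.2.1 ≤ M) ∧
      lamB290 ν τ {q | (iota57 K q)⁻¹ ∈ V} ≠ 0 ∧ lamB290 ν τ {q | (iota57 K q)⁻¹ ∈ V} ≠ ⊤

end Fermat.Agent.LT.T7.Rigid.H290

end
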