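import Mathlib
import Fermat.Agent.LT.T7.H290.CoreSpec
import Fermat.Agent.LT.T7.H290.BorelExch

/-!
# Row LT, tower T7, LEAF `FoldWhitC`, node `CorePosC57`: the group of Borel coordinates and the
translation rules for `λ = |y|⁻¹ dν dτ dτ` (helper290)

OFF-MAIN.  No `sorry`, nothing assumed.
-/

set_option autoImplicit false
set_option linter.unusedSectionVars false
set_option linter.style.haveILetI false

open AutomorphicForm IsDedekindDomain NumberField Filter Topology MeasureTheory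
open scoped ComplexConjugate ENNReal

noncomputable section

namespace Fermat.Agent.LT.T7.Rigid.H290

open Fermat.Agent.LT.H556 Fermat.Agent.LT.H556.A0 Fermat.Agent.LT.T7 Fermat.Agent.LT.T7.Rigid
open Fermat.Agent.LT.T7.H57

attribute [local instance] Fermat.Agent.LT.T5.instMeasurableSpaceG
attribute [local instance] instMA290 instBA290 instMI290 instBI290

variable (K : Type) [Field K] [NumberField K]

/-! ## 1. The group law in coordinates -/

/-- The product in Borel coordinates. -/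
def pmul (p q : Adl K × (Adl K)ˣ × (Adl K)ˣ) : Adl K × (Adl K)ˣ × (Adl K)ˣ :=
  (p.1 + (p.2.1 : Adl K) * q.1, p.2.1 * q.2.1, p.2.2 * q.2.2)

/-- The inverse in Borel coordinates. -/
def pinv (p : Adl K × (Adl K)ˣ × (Adl K)ˣ) : Adl K × (Adl K)ˣ × (Adl K)ˣ :=
  (-(((p.2.1⁻¹ : (Adl K)ˣ) : Adl K) * p.1), p.2.1⁻¹, p.2.2⁻¹)

theorem iota_val (p : Adl K × (Adl K)ˣ × (Adl K)ˣ) :
    ((iota57 K p : G K) : Matrix (Fin 2) (Fin 2) (Adl K))
      = !![(p.2.1 : Adl K) * (p.2.2 : Adl K), p.1 * (p.2.2 : Adl K); 0, (p.2.2 : Adl K)] := by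
  ext i j
  fin_cases i <;> fin_cases j <;>
    simp [iota57, Fermat.Agent.LT.T3.unip, dgA, zA57, Matrix.mul_apply, Fin.sum_univ_two]

theorem iota_pmul (p q : Adl K × (Adl K)ˣ × (Adl K)ˣ) :
    iota57 K (pmul K p q) = iota57 K p * iota57 K q := by
  apply Units.ext
  rw [Units.val_mul, iota_val, iota_val, iota_val]
  ext i j
  fin_cases i <;> fin_cases j <;>
    simp [pmul, Matrix.mul_apply, Fin.sum_univ_two] <;> ring

theorem pmul_pinv (p : Adl K × (Adl K)ˣ × (Adl K)ˣ) : pmul K p (pinv K p) = (0, 1, 1) := by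
  simp [pmul, pinv]

theorem pinv_pmul (p : Adl K × (Adl K)ˣ × (Adl K)ˣ) : pmul K (pinv K p) p = (0, 1, 1) := by
  simp [pmul, pinv]

theorem iota_one : iota57 K ((0 : Adl K), (1 : (Adl K)ˣ), (1 : (Adl K)ˣ)) = 1 := by
  apply Units.ext
  rw [iota_val]
  ext i j
  fin_cases i <;> fin_cases j <;> simp

theorem iota_pinv (p : Adl K × (Adl K)ˣ × (Adl K)ˣ) :
    iota57 K (pinv K p) = (iota57 K p)⁻¹ := by
  rw [eq_inv_iff_mul_eq_one, ← iota_pmul, pinv_pmul, iota_one]

theorem pmul_assoc (p q r : Adl K × (Adl K)ˣ × (Adl K)ˣ) :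
    pmul K (pmul K p q) r = pmul K p (pmul K q r) := by
  simp only [pmul, Units.val_mul, mul_assoc, Prod.mk.injEq, and_self, and_true]
  ring

theorem pmul_pinv_cancel_left (p q : Adl K × (Adl K)ˣ × (Adl K)ˣ) :
    pmul K p (pmul K (pinv K p) q) = q := by
  rw [← pmul_assoc, pmul_pinv]
  simp [pmul]

theorem pinv_pmul_cancel_left (p q : Adl K × (Adl K)ˣ × (Adl K)ˣ) :
    pmul K (pinv K p) (pmul K p q) = q := by
  rw [← pmul_assoc, pinv_pmul]
  simp [pmul]

/-! ## 2. The module -/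

theorem nrm_pos290 (hN : Fermat.Agent.LT.T1.AdNormC K) (y : (Adl K)ˣ) : 0 < nrm57 K y :=
  hN.1 y

theorem nrm_mul290 (hN : Fermat.Agent.LT.T1.AdNormC K) (y y' : (Adl K)ˣ) :
    nrm57 K (y * y') = nrm57 K y * nrm57 K y' :=
  hN.2.1 y y'

theorem nrm_one290 (hN : Fermat.Agent.LT.T1.AdNormC K) : nrm57 K (1 : (Adl K)ˣ) = 1 := by
  have h := nrm_mul290 K hN 1 1
  rw [mul_one] at h
  have hp := nrm_pos290 K hN 1
  nlinarith [h]

theorem nrm_inv290 (hN : Fermat.Agent.LT.T1.AdNormC K) (y : (Adl K)ˣ) :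
    nrm57 K y⁻¹ = (nrm57 K y)⁻¹ := by
  have h := nrm_mul290 K hN y y⁻¹
  rw [mul_inv_cancel, nrm_one290 K hN] at h
  exact eq_inv_of_mul_eq_one_right h.symm

theorem nrm_ratU290 (hN : Fermat.Agent.LT.T1.AdNormC K) (α : Kˣ) : nrm57 K (ratU57 K α) = 1 :=
  hN.2.2.1 α

theorem continuous_nrm290 (hN : Fermat.Agent.LT.T1.AdNormC K) : Continuous (nrm57 K) :=
  hN.2.2.2

/-- The weight `|y|⁻¹`. -/
def wB (p : Adl K × (Adl K)ˣ × (Adl K)ˣ) : ℝ≥0∞ := ENNReal.ofReal ((nrm57 K p.2.1)⁻¹)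

theorem measurable_wB (hN : Fermat.Agent.LT.T1.AdNormC K) : Measurable (wB K) := by
  unfold wB
  have h1 : Measurable (nrm57 K) := (continuous_nrm290 K hN).measurable
  exact ENNReal.measurable_ofReal.comp ((h1.comp (measurable_fst.comp measurable_snd)).inv)

theorem lamB_eq (ν : Measure (Adl K)) (τ : Measure (Adl K)ˣ) :
    lamB290 ν τ = (ν.prod (τ.prod τ)).withDensity (wB K) := rfl

theorem wB_pmul_left (hN : Fermat.Agent.LT.T1.AdNormC K) (a p : Adl K × (Adl K)ˣ × (Adl K)ˣ) :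
    wB K p = ENNReal.ofReal (nrm57 K a.2.1) * wB K (pmul K a p) := by
  unfold wB pmul
  simp only
  rw [nrm_mul290 K hN, ← ENNReal.ofReal_mul (nrm_pos290 K hN _).le]
  congr 1
  have h1 := (nrm_pos290 K hN a.2.1).ne'
  have h2 := (nrm_pos290 K hN p.2.1).ne'
  field_simp

theorem wB_pmul_right (hN : Fermat.Agent.LT.T1.AdNormC K) (p q : Adl K × (Adl K)ˣ × (Adl K)ˣ) :
    wB K p = ENNReal.ofReal (nrm57 K q.2.1) * wB K (pmul K p q) := by
  unfold wB pmul
  simp only
  rw [nrm_mul290 K hN, ← ENNReal.ofReal_mul (nrm_pos290 K hN _).le]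
  congr 1
  have h1 := (nrm_pos290 K hN q.2.1).ne'
  have h2 := (nrm_pos290 K hN p.2.1).ne'
  field_simp

theorem wB_actB (hN : Fermat.Agent.LT.T1.AdNormC K) (t : K × Kˣ × Kˣ)
    (p : Adl K × (Adl K)ˣ × (Adl K)ˣ) : wB K (actB K t p) = wB K p := by
  unfold wB actB
  simp only
  rw [nrm_mul290 K hN, nrm_ratU290 K hN, one_mul]

/-! ## 3. Translations -/

section trans

variable [SecondCountableTopology (Adl K)]

theorem secondCountable_units290 : SecondCountableTopology (Adl K)ˣ := by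
  haveI : SecondCountableTopology (Adl K)ᵐᵒᵖ :=
    (MulOpposite.opHomeomorph (M := Adl K)).symm.secondCountableTopology
  exact Units.isEmbedding_embedProduct.secondCountableTopology

attribute [local instance] secondCountable_units290

theorem measurable_val290 : Measurable fun y : (Adl K)ˣ => (y : Adl K) :=
  Units.continuous_val.measurable

theorem measurable_pmul_right (q : Adl K × (Adl K)ˣ × (Adl K)ˣ) :
    Measurable fun p : Adl K × (Adl K)ˣ × (Adl K)ˣ => pmul K p q := by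
  unfold pmul
  refine Measurable.prodMk ?_ (Measurable.prodMk ?_ ?_)
  · exact measurable_fst.add
      (((measurable_val290 K).comp (measurable_fst.comp measurable_snd)).mul_const _)
  · exact (measurable_fst.comp measurable_snd).mul_const _
  · exact (measurable_snd.comp measurable_snd).mul_const _

theorem measurable_pmul_left (a : Adl K × (Adl K)ˣ × (Adl K)ˣ) :
    Measurable fun p : Adl K × (Adl K)ˣ × (Adl K)ˣ => pmul K a p := by
  unfold pmul
  refine Measurable.prodMk ?_ (Measurable.prodMk ?_ ?_)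
  · exact (measurable_fst.const_mul _).const_add _
  · exact (measurable_fst.comp measurable_snd).const_mul _
  · exact (measurable_snd.comp measurable_snd).const_mul _

/-- Right translations preserve `ν × τ × τ`. -/
theorem measurePreserving_pmul_right (ν : Measure (Adl K)) [ν.IsAddHaarMeasure] [SFinite ν]
    (τ : Measure (Adl K)ˣ) [τ.IsHaarMeasure] [SFinite τ]
    (q : Adl K × (Adl K)ˣ × (Adl K)ˣ) :
    MeasurePreserving (fun p : Adl K × (Adl K)ˣ × (Adl K)ˣ => pmul K p q)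
      (ν.prod (τ.prod τ)) (ν.prod (τ.prod τ)) := by
  have h1 : MeasurePreserving (Prod.map (fun y : (Adl K)ˣ => q.2.1 * y)
      (fun z : (Adl K)ˣ => q.2.2 * z)) (τ.prod τ) (τ.prod τ) :=
    (measurePreserving_mul_left τ q.2.1).prod (measurePreserving_mul_left τ q.2.2)
  have hg : Measurable (Function.uncurry fun (a : (Adl K)ˣ × (Adl K)ˣ) (x : Adl K) =>
      x + (a.1 : Adl K) * q.1) :=
    measurable_snd.add (((measurable_val290 K).comp (measurable_fst.comp measurable_fst)).mul_const _)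
  have h2 := h1.skew_product (μc := ν) (μd := ν)
    (g := fun (a : (Adl K)ˣ × (Adl K)ˣ) (x : Adl K) => x + (a.1 : Adl K) * q.1) hg
    (Filter.Eventually.of_forall fun a => (measurePreserving_add_right ν _).map_eq)
  have h3 := (Measure.measurePreserving_swap (μ := τ.prod τ) (ν := ν)).comp
    (h2.comp (Measure.measurePreserving_swap (μ := ν) (ν := τ.prod τ)))
  have he : (fun p : Adl K × (Adl K)ˣ × (Adl K)ˣ => pmul K p q)
      = Prod.swap ∘ (fun p : ((Adl K)ˣ × (Adl K)ˣ) × Adl K =>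
          (Prod.map (fun y : (Adl K)ˣ => q.2.1 * y) (fun z : (Adl K)ˣ => q.2.2 * z) p.1,
            (fun (a : (Adl K)ˣ × (Adl K)ˣ) (x : Adl K) => x + (a.1 : Adl K) * q.1) p.1 p.2))
        ∘ Prod.swap := by
    funext p
    refine Prod.ext rfl (Prod.ext ?_ ?_)
    · exact mul_comm _ _
    · exact mul_comm _ _
  rw [he]
  exact h3

/-- `ν (y · X)`-scaling as a push-forward: `(x ↦ y x)_* ν = |y|⁻¹ ν`. -/
theorem map_mul_left_adele290 (hN : Fermat.Agent.LT.T1.AdNormC K)
    (hSc : ∀ μ : Measure (Adl K), μ.IsAddHaarMeasure → ∀ (x : (Adl K)ˣ) (X : Set (Adl K)),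
      μ ((fun y : Adl K => (x : Adl K) * y) '' X)
        = ENNReal.ofReal (Fermat.Agent.LT.T1.adNorm K (x : Adl K)) * μ X)
    (ν : Measure (Adl K)) [hν : ν.IsAddHaarMeasure] (y : (Adl K)ˣ) :
    Measure.map (fun x : Adl K => (y : Adl K) * x) ν
      = ENNReal.ofReal ((nrm57 K y)⁻¹) • ν := by
  have hm : Measurable fun x : Adl K => (y : Adl K) * x :=
    (continuous_const.mul continuous_id).measurable
  ext X hX
  rw [Measure.map_apply hm hX, Measure.smul_apply, smul_eq_mul]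
  have hpre : (fun x : Adl K => (y : Adl K) * x) ⁻¹' X
      = (fun x : Adl K => ((y⁻¹ : (Adl K)ˣ) : Adl K) * x) '' X := by
    ext x
    constructor
    · intro hx
      exact ⟨(y : Adl K) * x, hx, by simp [← mul_assoc]⟩
    · rintro ⟨x', hx', rfl⟩
      simpa [← mul_assoc] using hx'
  rw [hpre, hSc ν hν y⁻¹ X]
  congr 2
  exact nrm_inv290 K hN y

/-- Left translations scale `ν × τ × τ` by `|y|⁻¹`. -/
theorem map_pmul_left290 (hN : Fermat.Agent.LT.T1.AdNormC K)
    (hSc : ∀ μ : Measure (Adl K), μ.IsAddHaarMeasure → ∀ (x : (Adl K)ˣ) (X : Set (Adl K)),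
      μ ((fun y : Adl K => (x : Adl K) * y) '' X)
        = ENNReal.ofReal (Fermat.Agent.LT.T1.adNorm K (x : Adl K)) * μ X)
    (ν : Measure (Adl K)) [ν.IsAddHaarMeasure] [SFinite ν]
    (τ : Measure (Adl K)ˣ) [τ.IsHaarMeasure] [SFinite τ]
    (a : Adl K × (Adl K)ˣ × (Adl K)ˣ) :
    Measure.map (fun p : Adl K × (Adl K)ˣ × (Adl K)ˣ => pmul K a p) (ν.prod (τ.prod τ))
      = ENNReal.ofReal ((nrm57 K a.2.1)⁻¹) • (ν.prod (τ.prod τ)) := by
  have hf : Measurable fun x : Adl K => a.1 + (a.2.1 : Adl K) * x :=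
    (continuous_const.add (continuous_const.mul continuous_id)).measurable
  have hm : Measurable fun x : Adl K => (a.2.1 : Adl K) * x :=
    (continuous_const.mul continuous_id).measurable
  have h1 : Measure.map (fun x : Adl K => a.1 + (a.2.1 : Adl K) * x) ν
      = ENNReal.ofReal ((nrm57 K a.2.1)⁻¹) • ν := by
    have hc : (fun x : Adl K => a.1 + (a.2.1 : Adl K) * x)
        = (fun x : Adl K => a.1 + x) ∘ fun x : Adl K => (a.2.1 : Adl K) * x := rfl
    rw [hc, ← Measure.map_map (measurable_const_add _) hm, map_mul_left_adele290 K hN hSc ν,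
      Measure.map_smul, (measurePreserving_add_left ν a.1).map_eq]
  have h2 : Measure.map (Prod.map (fun y : (Adl K)ˣ => a.2.1 * y)
      (fun z : (Adl K)ˣ => a.2.2 * z)) (τ.prod τ) = τ.prod τ :=
    ((measurePreserving_mul_left τ a.2.1).prod (measurePreserving_mul_left τ a.2.2)).map_eq
  have he : (fun p : Adl K × (Adl K)ˣ × (Adl K)ˣ => pmul K a p)
      = Prod.map (fun x : Adl K => a.1 + (a.2.1 : Adl K) * x)
          (Prod.map (fun y : (Adl K)ˣ => a.2.1 * y) (fun z : (Adl K)ˣ => a.2.2 * z)) := rfl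
  rw [he, ← Measure.map_prod_map _ _ hf
    ((measurable_const_mul _).prodMap (measurable_const_mul _)), h1, h2]
  exact Measure.prod_smul_left _

/-- **`λ` is left invariant.** -/
theorem lintegral_lamB_pmul_left290 (hN : Fermat.Agent.LT.T1.AdNormC K)
    (hSc : ∀ μ : Measure (Adl K), μ.IsAddHaarMeasure → ∀ (x : (Adl K)ˣ) (X : Set (Adl K)),
      μ ((fun y : Adl K => (x : Adl K) * y) '' X)
        = ENNReal.ofReal (Fermat.Agent.LT.T1.adNorm K (x : Adl K)) * μ X)
    (ν : Measure (Adl K)) [ν.IsAddHaarMeasure] [SFinite ν]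
    (τ : Measure (Adl K)ˣ) [τ.IsHaarMeasure] [SFinite τ]
    (a : Adl K × (Adl K)ˣ × (Adl K)ˣ) (h : Adl K × (Adl K)ˣ × (Adl K)ˣ → ℝ≥0∞)
    (hh : Measurable h) :
    ∫⁻ p, h (pmul K a p) ∂(lamB290 ν τ) = ∫⁻ p, h p ∂(lamB290 ν τ) := by
  have hw := measurable_wB K hN
  have hL := measurable_pmul_left K a
  have hhL : Measurable fun p => h (pmul K a p) := hh.comp hL
  rw [lamB_eq, lintegral_withDensity_eq_lintegral_mul _ hw hhL,
    lintegral_withDensity_eq_lintegral_mul _ hw hh]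
  have h1 : ∀ p, (wB K * fun p => h (pmul K a p)) p
      = ENNReal.ofReal (nrm57 K a.2.1) * (wB K * h) (pmul K a p) := by
    intro p
    simp only [Pi.mul_apply]
    rw [wB_pmul_left K hN a p, mul_assoc]
  simp_rw [h1]
  have hwhL : Measurable fun p => (wB K * h) (pmul K a p) := (hw.mul hh).comp hL
  rw [lintegral_const_mul _ hwhL]
  have hmap := lintegral_map (μ := ν.prod (τ.prod τ)) (hw.mul hh) hL
  rw [← hmap, map_pmul_left290 K hN hSc ν τ a, lintegral_smul_measure,
    smul_eq_mul, ← mul_assoc, ← ENNReal.ofReal_mul (nrm_pos290 K hN _).le,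
    mul_inv_cancel₀ (nrm_pos290 K hN _).ne', ENNReal.ofReal_one, one_mul]

/-- **Right translation by `q` multiplies `λ` by `|y_q|`.** -/
theorem lintegral_lamB_pmul_right290 (hN : Fermat.Agent.LT.T1.AdNormC K)
    (ν : Measure (Adl K)) [ν.IsAddHaarMeasure] [SFinite ν]
    (τ : Measure (Adl K)ˣ) [τ.IsHaarMeasure] [SFinite τ]
    (q : Adl K × (Adl K)ˣ × (Adl K)ˣ) (h : Adl K × (Adl K)ˣ × (Adl K)ˣ → ℝ≥0∞)
    (hh : Measurable h) :
    ∫⁻ p, h (pmul K p q) ∂(lamB290 ν τ)
      = ENNReal.ofReal (nrm57 K q.2.1) * ∫⁻ p, h p ∂(lamB290 ν τ) := by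
  have hw := measurable_wB K hN
  have hR := measurable_pmul_right K q
  have hhR : Measurable fun p => h (pmul K p q) := hh.comp hR
  rw [lamB_eq, lintegral_withDensity_eq_lintegral_mul _ hw hhR,
    lintegral_withDensity_eq_lintegral_mul _ hw hh]
  have h1 : ∀ p, (wB K * fun p => h (pmul K p q)) p
      = ENNReal.ofReal (nrm57 K q.2.1) * (wB K * h) (pmul K p q) := by
    intro p
    simp only [Pi.mul_apply]
    rw [wB_pmul_right K hN p q, mul_assoc]
  simp_rw [h1]
  have hwhR : Measurable fun p => (wB K * h) (pmul K p q) := (hw.mul hh).comp hR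
  rw [lintegral_const_mul _ hwhR]
  congr 1
  exact (measurePreserving_pmul_right K ν τ q).lintegral_comp (hw.mul hh)

end trans

end Fermat.Agent.LT.T7.Rigid.H290

end
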