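import Mathlib
import Fermat.Agent.LT.T1.Spec
import Fermat.Agent.LT.T7.H57.FoldSpec5
import Fermat.Agent.LT.T7.H290.BorelTrans

/-!
# Row LT, tower T7, LEAF `FoldWhitC`, cut of helper57, leaves `BorelUnfC57`, `PRTransC57`,
`PLTransC57` (helper290)

OFF-MAIN.  No `sorry`, nothing assumed.  Frozen bytes: `LT/T7/H57/FoldSpec5.lean`
(helper57@6a1f79c59, sha256 8a9bba37).
-/

set_option autoImplicit false
set_option linter.unusedSectionVars false
set_option linter.style.haveILetI false

open AutomorphicForm IsDedekindDomain NumberField Filter Topology MeasureTheory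
open scoped ComplexConjugate ENNReal

noncomputable section

namespace Fermat.Agent.LT.T7.Rigid.H290

open Fermat.Agent.LT.H556 Fermat.Agent.LT.H556.A0 Fermat.Agent.LT.T7 Fermat.Agent.LT.T7.Rigid
open Fermat.Agent.LT.T7.H57

attribute [local instance] Fermat.Agent.LT.T5.instMeasurableSpaceG
attribute [local instance] instMA290 instBA290 instMI290 instBI290

variable (K : Type) [Field K] [NumberField K]

theorem actB57_eq (q : PK57 K) (p : PB57 K) : actB57 K q p = actB K q p := by
  unfold actB57 actB
  rw [add_comm]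

theorem om57_eq : om57 K = wB K := rfl

/-- **T7.14.6a-F.14 `BorelUnfC57`**, verbatim. -/
theorem borelUnfC_of290 (hN : Fermat.Agent.LT.T1.AdNormC K) (hLC : Fermat.Agent.LT.T1.LocCompC K)
    (hS : Fermat.Agent.LT.T3.HaarScaleC K) : BorelUnfC57 K := by
  intro ν D hν hDm hD τ hτ FX hFXm hFX f hf
  haveI : LocallyCompactSpace (Adl K) := hLC.1.1
  haveI : T2Space (Adl K) := hLC.1.2.1
  haveI : SecondCountableTopology (Adl K) := hLC.1.2.2
  haveI : SecondCountableTopology (Adl K)ˣ := secondCountable_units290 K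
  haveI := hν
  haveI := hτ
  have hw := measurable_wB K hN
  have h := lintegral_unfold_actB290 K hS ν hD τ hFX (fun p => f p * om57 K p)
    (hf.mul (by rw [om57_eq]; exact hw))
  rw [h]
  refine lintegral_congr fun p => ?_
  rw [← ENNReal.tsum_mul_right]
  refine tsum_congr fun q => ?_
  rw [actB57_eq, om57_eq, wB_actB K hN]

/-- **T7.14.6a-F.16 `PRTransC57`**, verbatim. -/
theorem pRTransC_of290 (hN : Fermat.Agent.LT.T1.AdNormC K)
    (hLC : Fermat.Agent.LT.T1.LocCompC K) : PRTransC57 K := by
  intro ν hν τ hτ f hf p₀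
  haveI : LocallyCompactSpace (Adl K) := hLC.1.1
  haveI : T2Space (Adl K) := hLC.1.2.1
  haveI : SecondCountableTopology (Adl K) := hLC.1.2.2
  haveI : SecondCountableTopology (Adl K)ˣ := secondCountable_units290 K
  haveI := hν
  haveI := hτ
  have hw := measurable_wB K hN
  have h := lintegral_lamB_pmul_right290 K hN ν τ p₀ f hf
  rw [lamB_eq, lintegral_withDensity_eq_lintegral_mul _ hw hf,
    lintegral_withDensity_eq_lintegral_mul _ hw
      (show Measurable fun p => f (pmul K p p₀) from hf.comp (measurable_pmul_right K p₀))] at h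
  simp only [Pi.mul_apply, mul_comm (wB K _)] at h
  exact h

/-- **T7.14.6a-F.17 `PLTransC57`**, verbatim (spare). -/
theorem pLTransC_of290 (hN : Fermat.Agent.LT.T1.AdNormC K)
    (hLC : Fermat.Agent.LT.T1.LocCompC K)
    (hSc : ∀ μ : Measure (Adl K), μ.IsAddHaarMeasure → ∀ (x : (Adl K)ˣ) (X : Set (Adl K)),
      μ ((fun y : Adl K => (x : Adl K) * y) '' X)
        = ENNReal.ofReal (Fermat.Agent.LT.T1.adNorm K (x : Adl K)) * μ X) : PLTransC57 K := by
  intro ν hν τ hτ f hf p₀
  haveI : LocallyCompactSpace (Adl K) := hLC.1.1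
  haveI : T2Space (Adl K) := hLC.1.2.1
  haveI : SecondCountableTopology (Adl K) := hLC.1.2.2
  haveI : SecondCountableTopology (Adl K)ˣ := secondCountable_units290 K
  haveI := hν
  haveI := hτ
  have hw := measurable_wB K hN
  have h := lintegral_lamB_pmul_left290 K hN hSc ν τ p₀ f hf
  rw [lamB_eq, lintegral_withDensity_eq_lintegral_mul _ hw hf,
    lintegral_withDensity_eq_lintegral_mul _ hw
      (show Measurable fun p => f (pmul K p₀ p) from hf.comp (measurable_pmul_left K p₀))] at h
  simp only [Pi.mul_apply, mul_comm (wB K _)] at h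
  exact h

end Fermat.Agent.LT.T7.Rigid.H290

end
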