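import Mathlib
import Fermat.Agent.LT.T7.B981.H503.StepSSpec

/-!
# Row LT, tower T7, node StepSC981 (cut of helper503), leaf SS.2 `TrEKC503` -- helper290

OFF-MAIN.  No hole, nothing assumed.  ADDITIVE (new names only, suffix `290`).

    trEKC290 (K) : SS503.TrEKC503 K        (VERBATIM, UNCONDITIONAL)

* `commute_scalarUnif290` : a scalar uniformiser is central in `GL₂(𝔸_K)`;
* `rconv_rtr290` : `R(φ(· c)) Ψ = R(φ) (Ψ(· c⁻¹))` (right invariance of `μ`);
* `isBorelInv_rtr290` : `Ψ(· c)` is Borel-invariant for `c` central.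
-/

set_option autoImplicit false
set_option linter.unusedSectionVars false

open AutomorphicForm IsDedekindDomain NumberField MeasureTheory
open scoped ComplexConjugate

noncomputable section

namespace Fermat.Agent.LT.T7.H290S

open Fermat.Agent.LT.H556 Fermat.Agent.LT.H556.A0 Fermat.Agent.LT.T7
open Fermat.Agent.LT.T7.B981.SS503

attribute [local instance] Fermat.Agent.LT.T5.instMeasurableSpaceG

variable {K : Type} [Field K] [NumberField K]

local instance instBSG290S : BorelSpace (G K) := ⟨rfl⟩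

/-- A scalar uniformiser is a scalar matrix, hence central. -/
theorem commute_scalarUnif290 {v : HeightOneSpectrum (𝓞 K)} {z : G K}
    (hz : IsScalarUniformizerAt v z) (g : G K) : z * g = g * z := by
  obtain ⟨⟨hinf, hfin⟩, c, -, hc⟩ := hz
  have hv : ∀ i j : Fin 2, ((z : Matrix (Fin 2) (Fin 2) (Adl K)) i j).2 v
      = (Matrix.diagonal fun _ => c) i j := fun i j => congrFun (congrFun hc i) j
  have hf : ∀ v' : HeightOneSpectrum (𝓞 K), v' ≠ v → ∀ i j : Fin 2,
      ((z : Matrix (Fin 2) (Fin 2) (Adl K)) i j).2 v'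
        = (1 : Matrix (Fin 2) (Fin 2) (v'.adicCompletion K)) i j := fun v' hv' i j =>
    congrFun (congrFun (hfin v' hv') i) j
  have key : ∀ i j : Fin 2, (z : Matrix (Fin 2) (Fin 2) (Adl K)) i j
      = (Matrix.diagonal fun _ => (z : Matrix (Fin 2) (Fin 2) (Adl K)) 0 0) i j := by
    intro i j
    refine Prod.ext ?_ ?_
    · funext w
      by_cases hij : i = j
      · subst hij
        rw [Matrix.diagonal_apply_eq, hinf w i i, hinf w 0 0, Matrix.one_apply_eq,
          Matrix.one_apply_eq]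
      · rw [Matrix.diagonal_apply_ne _ hij, hinf w i j, Matrix.one_apply_ne hij]
        rfl
    · apply Subtype.ext
      funext v'
      by_cases hvv : v' = v
      · subst hvv
        by_cases hij : i = j
        · subst hij
          rw [Matrix.diagonal_apply_eq]
          show ((z : Matrix (Fin 2) (Fin 2) (Adl K)) i i).2 v'
            = ((z : Matrix (Fin 2) (Fin 2) (Adl K)) 0 0).2 v'
          rw [hv i i, hv 0 0, Matrix.diagonal_apply_eq, Matrix.diagonal_apply_eq]
        · rw [Matrix.diagonal_apply_ne _ hij]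
          show ((z : Matrix (Fin 2) (Fin 2) (Adl K)) i j).2 v' = (0 : Adl K).2 v'
          rw [hv i j, Matrix.diagonal_apply_ne _ hij]
          rfl
      · by_cases hij : i = j
        · subst hij
          rw [Matrix.diagonal_apply_eq]
          show ((z : Matrix (Fin 2) (Fin 2) (Adl K)) i i).2 v'
            = ((z : Matrix (Fin 2) (Fin 2) (Adl K)) 0 0).2 v'
          rw [hf v' hvv i i, hf v' hvv 0 0, Matrix.one_apply_eq, Matrix.one_apply_eq]
        · rw [Matrix.diagonal_apply_ne _ hij]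
          show ((z : Matrix (Fin 2) (Fin 2) (Adl K)) i j).2 v' = (0 : Adl K).2 v'
          rw [hf v' hvv i j, Matrix.one_apply_ne hij]
          rfl
  have hzm : (z : Matrix (Fin 2) (Fin 2) (Adl K))
      = Matrix.diagonal fun _ => (z : Matrix (Fin 2) (Fin 2) (Adl K)) 0 0 := by
    ext i j
    exact key i j
  apply Units.ext
  rw [Units.val_mul, Units.val_mul, hzm]
  ext i j
  simp [Matrix.diagonal_mul, Matrix.mul_diagonal, mul_comm]

theorem commute_zpow290 {c : G K} (hc : ∀ g : G K, c * g = g * c) (t : ℤ) (g : G K) :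
    c ^ t * g = g * c ^ t :=
  ((show Commute c g from hc g).zpow_left t).eq

/-- Change of variables for a right invariant measure (no integrability needed). -/
theorem integral_mul_right290 {μ : Measure (G K)} {F : Set (G K)} (hF : T5.IsFrame μ F)
    (c : G K) (f : G K → ℂ) : ∫ y, f (y * c) ∂μ = ∫ y, f y ∂μ := by
  have hmap : Measure.map (MeasurableEquiv.mulRight c) μ = μ := by
    refine Measure.ext fun A hA => ?_
    rw [MeasurableEquiv.map_apply]
    exact hF.right_inv c A hA
  have h := MeasureTheory.integral_map_equiv (μ := μ) (MeasurableEquiv.mulRight c) f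
  rw [hmap] at h
  rw [h]
  rfl

/-- `R(φ(· c)) Ψ = R(φ) (Ψ(· c⁻¹))`. -/
theorem rconv_rtr290 {μ : Measure (G K)} {F : Set (G K)} (hF : T5.IsFrame μ F)
    (c : G K) (φ Ψ : G K → ℂ) (x : G K) :
    T5.Rconv μ (rtr503 c φ) Ψ x = T5.Rconv μ φ (rtr503 c⁻¹ Ψ) x := by
  show ∫ y, φ (y * c) * Ψ (x * y) ∂μ = ∫ y, φ y * Ψ (x * y * c⁻¹) ∂μ
  have h := integral_mul_right290 hF c (fun y => φ y * Ψ (x * y * c⁻¹))
  rw [← h]
  congr 1
  funext y
  show φ (y * c) * Ψ (x * y) = φ (y * c) * Ψ (x * (y * c) * c⁻¹)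
  congr 2
  group

/-- `Ψ(· c)` is Borel-invariant for `c` central. -/
theorem isBorelInv_rtr290 {c : G K} (hc : ∀ g : G K, c * g = g * c) {Ψ : G K → ℂ}
    (hΨ : T5.IsBorelInvariantFn Ψ) : T5.IsBorelInvariantFn (rtr503 c Ψ) where
  cont := hΨ.cont.comp (continuous_id.mul continuous_const)
  unip := fun n x hn g => by
    show Ψ (n * g * c) = Ψ (g * c)
    rw [mul_assoc]
    exact hΨ.unip n x hn (g * c)
  torus := fun t a b ht g => by
    show Ψ (T5.ratG t * g * c) = Ψ (g * c)
    rw [mul_assoc]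
    exact hΨ.torus t a b ht (g * c)
  ray := by
    obtain ⟨r, hr, hrΨ⟩ := hΨ.ray
    refine ⟨r, hr, fun g => ?_⟩
    show Ψ (g * r * c) = Ψ (g * c)
    rw [mul_assoc, ← hc r, ← mul_assoc]
    exact hrΨ (g * c)

theorem isEK_rtr290 {μ : Measure (G K)} {F : Set (G K)} (hF : T5.IsFrame μ F)
    {c : G K} (hc : ∀ g : G K, c * g = g * c) {φ : G K → ℂ} (hφ : T5.IsEK μ φ) :
    T5.IsEK μ (rtr503 c φ) := by
  intro Ψ hΨ x
  rw [rconv_rtr290 hF c φ Ψ x]
  have hc' : ∀ g : G K, c⁻¹ * g = g * c⁻¹ := fun g =>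
    ((show Commute c g from hc g).inv_left).eq
  exact hφ _ (isBorelInv_rtr290 hc' hΨ) x

theorem adjoint_rtr290 {c : G K} (hc : ∀ g : G K, c * g = g * c) (φ : G K → ℂ) :
    T5.adjointFn (rtr503 c φ) = rtr503 c⁻¹ (T5.adjointFn φ) := by
  funext g
  show conj (φ (g⁻¹ * c)) = conj (φ ((g * c⁻¹)⁻¹))
  congr 2
  rw [mul_inv_rev, inv_inv]
  exact (hc g⁻¹).symm

/-- **LEAF SS.2 = TR-EK.** -/
theorem trEKC290 (K : Type) [Field K] [NumberField K] : TrEKC503 K := by
  intro μ F hF v z hz t φ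
  have hc : ∀ g : G K, z ^ t * g = g * z ^ t :=
    commute_zpow290 (commute_scalarUnif290 hz) t
  refine ⟨fun h => isEK_rtr290 hF hc h, fun h => ?_⟩
  rw [adjoint_rtr290 hc φ]
  have hc' : ∀ g : G K, (z ^ t)⁻¹ * g = g * (z ^ t)⁻¹ := fun g =>
    ((show Commute (z ^ t) g from hc g).inv_left).eq
  exact isEK_rtr290 hF hc' h

end Fermat.Agent.LT.T7.H290S

end
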