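import Mathlib
import Fermat.Agent.LT.T7.H290.TrEK

/-!
# Row LT, tower T7, node StepSC981 (cut of helper503), leaf SS.4 `TrOpC503` -- helper290 (spare)

OFF-MAIN.  No hole, nothing assumed.  ADDITIVE (new names only, suffix `290`).

    trOpC290 (K) : SS503.TrOpC503 K        (VERBATIM, UNCONDITIONAL)
-/

set_option autoImplicit false
set_option linter.unusedSectionVars false

open AutomorphicForm IsDedekindDomain NumberField MeasureTheory
open scoped ComplexConjugate

noncomputable section

namespace Fermat.Agent.LT.T7.H290S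

open Fermat.Agent.LT.H556 Fermat.Agent.LT.H556.A0 Fermat.Agent.LT.T7
open Fermat.Agent.LT.T7.B981.SS503

attribute [local instance] Fermat.Agent.LT.T5.instMeasurableSpaceG

variable {K : Type} [Field K] [NumberField K]

theorem eigen_pow290 {χ : G K → ℂ} {b : ℂ} {z : G K} (h : ∀ g : G K, χ (g * z) = b * χ g)
    (k : ℕ) (g : G K) : χ (g * z ^ k) = b ^ k * χ g := by
  induction k generalizing g with
  | zero => simp
  | succ k ih =>
    rw [pow_succ, ← mul_assoc, h, ih, pow_succ]
    ring

theorem rconv_smul290 (μ : Measure (G K)) (φ χ : G K → ℂ) (a : ℂ) (y : G K) :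
    T5.Rconv μ φ (fun g => a * χ g) y = a * T5.Rconv μ φ χ y := by
  show ∫ x, φ x * (a * χ (y * x)) ∂μ = a * ∫ x, φ x * χ (y * x) ∂μ
  rw [← integral_const_mul]
  congr 1
  funext x
  ring

/-- **LEAF SS.4 = TR-OP.** -/
theorem trOpC290 (K : Type) [Field K] [NumberField K] : TrOpC503 K := by
  intro μ F hF χ v a b hχ z hz k φ y
  have hb : ∀ g : G K, χ (g * z) = b * χ g := hχ.2 z hz
  refine ⟨?_, ?_⟩
  · rw [rconv_rtr290 hF _ φ χ y]
    have : rtr503 (z ^ (-(k : ℤ)))⁻¹ χ = fun g => b ^ k * χ g := by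
      funext g
      show χ (g * (z ^ (-(k : ℤ)))⁻¹) = b ^ k * χ g
      rw [zpow_neg, inv_inv, zpow_natCast]
      exact eigen_pow290 hb k g
    rw [this]
    exact rconv_smul290 μ φ χ _ y
  · rw [rconv_rtr290 hF _ φ χ y]
    have : rtr503 (z ^ (k : ℤ))⁻¹ χ = fun g => (b ^ k)⁻¹ * χ g := by
      funext g
      show χ (g * (z ^ (k : ℤ))⁻¹) = (b ^ k)⁻¹ * χ g
      rw [zpow_natCast]
      have h1 : χ g = b ^ k * χ (g * (z ^ k)⁻¹) := by
        have := eigen_pow290 hb k (g * (z ^ k)⁻¹)
        rw [inv_mul_cancel_right] at this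
        exact this
      by_cases hbk : b ^ k = 0
      · rw [hbk, inv_zero, zero_mul]
        -- `χ` vanishes identically
        have hχ0 : ∀ g' : G K, χ g' = 0 := by
          intro g'
          have := eigen_pow290 hb k (g' * (z ^ k)⁻¹)
          rw [inv_mul_cancel_right, hbk, zero_mul] at this
          exact this
        exact hχ0 _
      · rw [h1, ← mul_assoc, inv_mul_cancel₀ hbk, one_mul]
    rw [this]
    exact rconv_smul290 μ φ χ _ y

end Fermat.Agent.LT.T7.H290S

end
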